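import Mathlib
import Fermat.Agent.FF.PlacesMain

/-!
# Smooth points of plane models

`Centred w x y a b`: the place `w` lies over the point `(a, b)` of the plane model given by
`(x, y)`. For an analytic branch through a simple root, `order_branch` identifies the order of a
function at `w` with its order along the branch times the order of `x - a`.
-/

set_option autoImplicit false
set_option linter.unusedSectionVars false

noncomputable section

open AlgebraicCurve Polynomial WithZero
open scoped Polynomial.Bivariate Topology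

namespace FLTAgent.Pic0Tors

section Alg

variable {K F : Type*} [Field K] [Field F] [Algebra K F]

/-- Evaluation of bivariate polynomials at `(x, y)`. -/
def evxy (x y : F) : K[X][Y] →ₐ[K] F := Polynomial.aevalAeval x y

@[simp]
theorem evxy_C (x y : F) (p : K[X]) : evxy x y (C p) = aeval x p :=
  Polynomial.aevalAeval_C x y p

@[simp]
theorem evxy_Y (x y : F) : evxy x y (Y : K[X][Y]) = y :=
  Polynomial.aevalAeval_Y x y

/-- The place `w` is centred at the point `(a, b)` of the plane model `(x, y)`. -/
structure Centred (w : Place K F) (x y : F) (a b : K) : Prop where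
  fst : w.adicValuation (x - algebraMap K F a) < 1
  snd : w.adicValuation (y - algebraMap K F b) < 1

theorem exists_decomp (A : K[X][Y]) (a b : K) :
    ∃ (Q : K[X][Y]) (Q' : K[X]),
      A = C (C (A.evalEval a b)) + (Y - C (C b)) * Q + C ((X - C a) * Q') := by
  obtain ⟨Q, hQ⟩ := X_sub_C_dvd_sub_C_eval (a := C b) (p := A)
  obtain ⟨Q', hQ'⟩ := X_sub_C_dvd_sub_C_eval (a := a) (p := A.eval (C b))
  refine ⟨Q, Q', ?_⟩
  rw [← hQ', C_sub, ← hQ]
  simp only [evalEval]
  ring

theorem exists_mul_eq_step {P : K[X][Y]} {a b : K} (hP : P.evalEval a b = 0)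
    (hd : (derivative P).evalEval a b ≠ 0) :
    ∃ R : K[X][Y], R.evalEval a b ≠ 0 ∧ ∀ A : K[X][Y], A.evalEval a b = 0 →
      ∃ A2 Q : K[X][Y], A * R = C (X - C a) * A2 + Q * P := by
  obtain ⟨S, S', hS⟩ := exists_decomp P a b
  rw [hP, map_zero, map_zero, zero_add] at hS
  refine ⟨S, ?_, fun A hA => ?_⟩
  · rw [hS] at hd
    simpa [derivative_mul, evalEval_add, evalEval_mul, evalEval_sub] using hd
  obtain ⟨Q, Q', hQ⟩ := exists_decomp A a b
  rw [hA, map_zero, map_zero, zero_add] at hQ
  refine ⟨C Q' * S - Q * C S', Q, ?_⟩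
  rw [hS, hQ]
  simp only [map_mul]
  ring

variable {w : Place K F} {x y : F} {a b : K}

theorem val_evxy_le (h : Centred w x y a b) (A : K[X][Y]) :
    w.adicValuation (evxy x y A) ≤ 1 := by
  have hx : x ∈ w.toValuationSubring := by
    simpa using add_mem ((FF.mem_iff_val_le_one w _).mpr h.fst.le) (w.algebraMap_mem' a)
  have hy : y ∈ w.toValuationSubring := by
    simpa using add_mem ((FF.mem_iff_val_le_one w _).mpr h.snd.le) (w.algebraMap_mem' b)
  have e : (IsScalarTower.toAlgHom K w.toValuationSubring F).comp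
      (aevalAeval (⟨x, hx⟩ : w.toValuationSubring) (⟨y, hy⟩ : w.toValuationSubring)) =
      (evxy x y : K[X][Y] →ₐ[K] F) := by
    refine (aevalAevalEquiv K F).symm.injective ?_
    simp [evxy, aevalAevalEquiv]
  rw [← e, ← FF.mem_iff_val_le_one]
  exact (aevalAeval (⟨x, hx⟩ : w.toValuationSubring) (⟨y, hy⟩ : w.toValuationSubring) A).2

theorem val_evxy_sub_lt (h : Centred w x y a b) (A : K[X][Y]) :
    w.adicValuation (evxy x y A - algebraMap K F (A.evalEval a b)) < 1 := by
  obtain ⟨Q, Q', hQ⟩ := exists_decomp A a b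
  have e : evxy x y A - algebraMap K F (A.evalEval a b) =
      (y - algebraMap K F b) * evxy x y Q +
      (x - algebraMap K F a) * evxy x y (C Q') := by
    conv_lhs => arg 1; rw [hQ]
    simp
    ring
  rw [e]
  refine (Valuation.map_add _ _ _).trans_lt (max_lt ?_ ?_) <;> rw [map_mul]
  · exact (mul_le_of_le_one_right' (val_evxy_le h Q)).trans_lt h.snd
  · exact (mul_le_of_le_one_right' (val_evxy_le h _)).trans_lt h.fst

theorem val_evxy_eq_one (h : Centred w x y a b) {A : K[X][Y]}
    (hA : A.evalEval a b ≠ 0) : w.adicValuation (evxy x y A) = 1 := by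
  have hne : algebraMap K F (A.evalEval a b) ≠ 0 := (_root_.map_ne_zero _).mpr hA
  have h1 : w.adicValuation (algebraMap K F (A.evalEval a b)) = 1 := by
    rw [FF.val_eq_exp w hne, FF.ord_algebraMap, neg_zero, exp_zero]
  have := Valuation.map_sub_eq_of_lt_right w.adicValuation
    (x := evxy x y A - algebraMap K F (A.evalEval a b))
    (y := -algebraMap K F (A.evalEval a b)) (by
      rw [Valuation.map_neg, h1]; exact val_evxy_sub_lt h A)
  rwa [sub_neg_eq_add, sub_add_cancel, Valuation.map_neg, h1] at this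

theorem evalEval_eq_zero_of_evxy (h : Centred w x y a b) {A : K[X][Y]}
    (hA : evxy x y A = 0) : A.evalEval a b = 0 := by
  by_contra hne
  simpa [hA] using val_evxy_eq_one h hne

end Alg

section An

variable {F : Type*} [Field F] [Algebra ℂ F] {w : Place ℂ F} {x y : F} {a b : ℂ}
  {P : ℂ[X][Y]} {h : ℂ → ℂ}

/-- The restriction of a polynomial to the branch `z ↦ (z, h z)`. -/
def branch (h : ℂ → ℂ) (A : ℂ[X][Y]) (z : ℂ) : ℂ := A.evalEval z (h z)

theorem analyticAt_branch (hh : AnalyticAt ℂ h a) (A : ℂ[X][Y]) :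
    AnalyticAt ℂ (branch h A) a := by
  have e : branch h A = fun z => ∑ i ∈ A.support, (A.coeff i).eval z * h z ^ i := by
    funext z
    rw [branch, evalEval, eval_eq_sum (p := A), sum_def, eval_finsetSum]
    simp
  rw [e]
  refine Finset.analyticAt_fun_sum _ fun i _ => ?_
  exact ((AnalyticAt.aeval_polynomial analyticAt_id (A.coeff i)).congr
    (Filter.Eventually.of_forall fun z => by simp)).mul (hh.pow i)

theorem branch_step_eventually {A R A2 Q : ℂ[X][Y]}
    (hP : ∀ᶠ z in 𝓝 a, branch h P z = 0) (e : A * R = C (X - C a) * A2 + Q * P) :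
    branch h A * branch h R =ᶠ[𝓝 a] fun z => (z - a) * branch h A2 z := by
  filter_upwards [hP] with z hz
  have := congrArg (fun p => evalEval z (h z) p) e
  simp only [evalEval_mul, evalEval_add, evalEval_C, eval_sub, eval_X, eval_C] at this
  simp only [branch] at hz ⊢
  simpa [hz, branch] using this

variable (hc : Centred w x y a b) (hx : x - algebraMap ℂ F a ≠ 0)
  (hPxy : evxy x y P = 0) (hd : (derivative P).evalEval a b ≠ 0)
  (hh : AnalyticAt ℂ h a) (hha : h a = b) (hP : ∀ᶠ z in 𝓝 a, branch h P z = 0)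
include hc hx hPxy hd hh hha hP

theorem evxy_step {A : ℂ[X][Y]} (hA : A.evalEval a b = 0) :
    ∃ R A2 : ℂ[X][Y], R.evalEval a b ≠ 0 ∧
      evxy x y A * evxy x y R = (x - algebraMap ℂ F a) * evxy x y A2 ∧
      analyticOrderAt (branch h A) a = 1 + analyticOrderAt (branch h A2) a := by
  have hP0 : P.evalEval a b = 0 := evalEval_eq_zero_of_evxy hc hPxy
  obtain ⟨R, hR, hstep⟩ := exists_mul_eq_step hP0 hd
  obtain ⟨A2, Q, e⟩ := hstep A hA
  refine ⟨R, A2, hR, ?_, ?_⟩
  · have := congrArg (evxy x y) e
    simpa [hPxy] using this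
  · have hAn := analyticAt_branch hh A
    have hRn := analyticAt_branch hh R
    have h2 := analyticAt_branch hh A2
    have hlin : AnalyticAt ℂ (fun z : ℂ => z - a) a := analyticAt_id.sub analyticAt_const
    have h1 : analyticOrderAt (branch h R) a = 0 :=
      analyticOrderAt_eq_zero.mpr (Or.inr (by simpa [branch, hha] using hR))
    have h3 := analyticOrderAt_congr (branch_step_eventually hP e)
    rw [analyticOrderAt_mul hAn hRn, h1, add_zero,
      show (fun z => (z - a) * branch h A2 z) = (fun z : ℂ => z - a) * branch h A2 from rfl,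
      analyticOrderAt_mul hlin h2, analyticOrderAt_id_sub_const_self] at h3
    exact h3

/-- The order at `w` is the order along the branch, scaled by that of `x - a`. -/
theorem order_branch (A : ℂ[X][Y]) (hA : evxy x y A ≠ 0) :
    ∃ n : ℕ, analyticOrderAt (branch h A) a = n ∧
      w.ord (evxy x y A) = n * w.ord (x - algebraMap ℂ F a) := by
  have hpos : 0 < w.ord (x - algebraMap ℂ F a) := by
    have := hc.fst
    rw [FF.val_eq_exp w hx, ← exp_zero, exp_lt_exp] at this
    omega
  induction hm : (w.ord (evxy x y A)).toNat using Nat.strong_induction_on generalizing A with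
  | _ m ih =>
    by_cases h0 : A.evalEval a b = 0
    · obtain ⟨R, A2, hR, e, ho⟩ := evxy_step hc hx hPxy hd hh hha hP h0
      have hR1 := val_evxy_eq_one hc hR
      have hR0 : evxy x y R ≠ 0 := fun h' => by simp [h'] at hR1
      rw [FF.val_eq_exp w hR0, ← exp_zero, exp_inj] at hR1
      have hA2 : evxy x y A2 ≠ 0 := by
        intro h'
        rw [h', mul_zero] at e
        exact mul_ne_zero hA hR0 e
      have he := congrArg w.ord e
      rw [w.ord_mul hA hR0, w.ord_mul hx hA2] at he
      have hnn : 0 ≤ w.ord (evxy x y A2) :=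
        (FF.mem_iff_ord_nonneg w hA2).mp ((FF.mem_iff_val_le_one w _).mpr (val_evxy_le hc A2))
      obtain ⟨n, hn, hn'⟩ := ih _ (by omega) A2 hA2 rfl
      refine ⟨n + 1, ?_, ?_⟩
      · rw [ho, hn]; push_cast; ring
      · push_cast
        linear_combination he + hn' + hR1
    · refine ⟨0, ?_, ?_⟩
      · exact analyticOrderAt_eq_zero.mpr (Or.inr (by simpa [branch, hha] using h0))
      · have h1 := val_evxy_eq_one hc h0
        rw [FF.val_eq_exp w hA, ← exp_zero, exp_inj] at h1
        simp only [Nat.cast_zero, zero_mul]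
        omega

theorem order_branch_of_eq_zero (A : ℂ[X][Y]) (hA : evxy x y A = 0) :
    analyticOrderAt (branch h A) a = ⊤ := by
  refine ENat.eq_top_iff_forall_ge.mpr fun n => ?_
  induction n generalizing A with
  | zero => simp
  | succ n ih =>
    obtain ⟨R, A2, hR, e, ho⟩ :=
      evxy_step hc hx hPxy hd hh hha hP (evalEval_eq_zero_of_evxy hc hA)
    rw [hA, zero_mul, eq_comm, mul_eq_zero] at e
    rw [ho, Nat.cast_add, Nat.cast_one, add_comm (n : ℕ∞)]
    exact add_le_add le_rfl (ih A2 (e.resolve_left hx))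

theorem branch_eventually_zero (A : ℂ[X][Y]) (hA : evxy x y A = 0) :
    ∀ᶠ z in 𝓝 a, branch h A z = 0 :=
  analyticOrderAt_eq_top.mp (order_branch_of_eq_zero hc hx hPxy hd hh hha hP A hA)

end An

end FLTAgent.Pic0Tors
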