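import Mathlib
import Fermat.Agent.Pic0Tors.Centred

/-!
# Analytic branches of plane curves

`exists_branch`: through a simple root of `P(a, -)` passes an analytic branch `h` with
`P(z, h z) = 0`, unique in a neighbourhood (analytic implicit function theorem).
-/

set_option autoImplicit false

noncomputable section

open Polynomial Filter
open scoped Polynomial.Bivariate Topology ContDiff

namespace FLTAgent.Pic0Tors

theorem analyticAt_evalEval (P : ℂ[X][Y]) (p : ℂ × ℂ) :
    AnalyticAt ℂ (fun q : ℂ × ℂ => P.evalEval q.1 q.2) p := by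
  have e : (fun q : ℂ × ℂ => P.evalEval q.1 q.2) =
      fun q => ∑ i ∈ P.support, (P.coeff i).eval q.1 * q.2 ^ i := by
    funext q
    rw [evalEval, eval_eq_sum (p := P), sum_def, eval_finsetSum]
    simp
  rw [e]
  refine Finset.analyticAt_fun_sum _ fun i _ => ?_
  exact ((AnalyticAt.aeval_polynomial (analyticAt_fst (p := p)) (P.coeff i)).congr
    (Filter.Eventually.of_forall fun q => by simp)).mul (analyticAt_snd.pow i)

/-- A simple root of a plane curve extends to an analytic branch, unique nearby. -/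
theorem exists_branch {P : ℂ[X][Y]} {a b : ℂ} (h0 : P.evalEval a b = 0)
    (hd : (derivative P).evalEval a b ≠ 0) :
    ∃ (h : ℂ → ℂ) (r ε : ℝ), 0 < r ∧ 0 < ε ∧ h a = b ∧ AnalyticOnNhd ℂ h (Metric.ball a r) ∧
      (∀ z ∈ Metric.ball a r, branch h P z = 0 ∧ (derivative P).evalEval z (h z) ≠ 0 ∧
        h z ∈ Metric.ball b ε) ∧
      ∀ z ∈ Metric.ball a r, ∀ c ∈ Metric.ball b ε, P.evalEval z c = 0 → c = h z := by
  set f : ℂ × ℂ → ℂ := fun q => P.evalEval q.1 q.2 with hf
  have han := analyticAt_evalEval P (a, b)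
  have hcd : ContDiffAt ℂ ω f (a, b) := han.contDiffAt
  have hsnd : (fderiv ℂ f (a, b) ∘L .inr ℂ ℂ ℂ) = (derivative P).evalEval a b • .id ℂ ℂ := by
    refine ContinuousLinearMap.ext_ring ?_
    have h1 : HasDerivAt (fun c => P.evalEval a c) ((derivative P).evalEval a b) b := by
      have h2 := (P.map (evalRingHom a)).hasDerivAt b
      rw [derivative_map, map_evalRingHom_eval] at h2
      exact h2.congr_of_eventuallyEq (Eventually.of_forall fun c => (map_evalRingHom_eval a c P).symm)
    have h3 : HasDerivAt (fun c => f (a, c)) (fderiv ℂ f (a, b) (0, 1)) b :=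
      han.differentiableAt.hasFDerivAt.comp_hasDerivAt b ((hasDerivAt_const b a).prodMk (hasDerivAt_id b))
    simpa using h3.unique h1
  have hinv : (fderiv ℂ f (a, b) ∘L .inr ℂ ℂ ℂ).IsInvertible := by
    rw [hsnd]
    exact ⟨ContinuousLinearEquiv.smulLeft (Units.mk0 _ hd), by ext; simp⟩
  have hω : (ω : ℕ∞ω) ≠ 0 := by simp
  set h := hcd.implicitFunction hω hinv with hh
  have hha : h a = b := hcd.implicitFunction_apply_self hω hinv
  have hanh : AnalyticAt ℂ h a := (hcd.contDiffAt_implicitFunction hω hinv).analyticAt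
  have hiff := hcd.eventually_apply_eq_iff_implicitFunction hω hinv
  have hroot := hcd.eventually_apply_implicitFunction hω hinv
  rw [nhds_prod_eq, Filter.eventually_prod_iff] at hiff
  obtain ⟨pa, hpa, pb, hpb, huniq⟩ := hiff
  obtain ⟨ε, hε, hεsub⟩ := Metric.eventually_nhds_iff_ball.mp hpb
  have hdc : ∀ᶠ z in 𝓝 a, (derivative P).evalEval z (h z) ≠ 0 :=
    (analyticAt_branch hanh (derivative P)).continuousAt.eventually_ne
      (show branch h (derivative P) a ≠ 0 by rwa [branch, hha])
  have hball : ∀ᶠ z in 𝓝 a, h z ∈ Metric.ball b ε :=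
    hanh.continuousAt.preimage_mem_nhds (by rw [hha]; exact Metric.ball_mem_nhds b hε)
  obtain ⟨r, hr, hrsub⟩ := Metric.eventually_nhds_iff_ball.mp
    (hpa.and (hroot.and (hdc.and (hball.and hanh.eventually_analyticAt))))
  refine ⟨h, r, ε, hr, hε, hha, fun z hz => (hrsub z hz).2.2.2.2,
    fun z hz => ⟨?_, (hrsub z hz).2.2.1, (hrsub z hz).2.2.2.1⟩, fun z hz c hc h' => ?_⟩
  · exact (hrsub z hz).2.1.trans (by simpa [f] using h0)
  · exact (((huniq (hrsub z hz).1 (hεsub c hc)).mp (show f (z, c) = f (a, b) by simpa [f, h0] using h'))).symm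

end FLTAgent.Pic0Tors
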