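import Mathlib
import Fermat.Agent.FF.PlacesMain

/-!
# Values of functions at places

`value w f` is the residue of `f` at the place `w` in the constant field (zero at a pole);
compatibility with sums, products and constants, and `value_eq_zero_iff`.
-/

set_option autoImplicit false
set_option linter.unusedSectionVars false

noncomputable section

open AlgebraicCurve WithZero

namespace FLTAgent.Pic0Tors

variable {K F : Type*} [Field K] [Field F] [Algebra K F] [IsAlgClosed K] [FF.IsFF K F]

open Classical in
/-- The value of `f` at `w` (zero at a pole). -/
def value (w : Place K F) (f : F) : K :=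
  if h : ∃ c : K, w.adicValuation (f - algebraMap K F c) < 1 then h.choose else 0

theorem val_algebraMap_eq_one (w : Place K F) {c : K} (hc : c ≠ 0) :
    w.adicValuation (algebraMap K F c) = 1 := by
  rw [FF.val_eq_exp w ((map_ne_zero _).mpr hc), FF.ord_algebraMap, neg_zero, exp_zero]

theorem value_eq {w : Place K F} {f : F} {c : K}
    (h : w.adicValuation (f - algebraMap K F c) < 1) : value w f = c := by
  have h' : ∃ d : K, w.adicValuation (f - algebraMap K F d) < 1 := ⟨c, h⟩
  rw [value, dif_pos h']
  by_contra hne
  have h1 := val_algebraMap_eq_one w (sub_ne_zero.mpr hne)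
  have e : algebraMap K F (h'.choose - c) =
      (f - algebraMap K F c) - (f - algebraMap K F h'.choose) := by rw [map_sub]; ring
  rw [e] at h1
  exact absurd h1 (ne_of_lt ((Valuation.map_sub _ _ _).trans_lt (max_lt h h'.choose_spec)))

theorem val_sub_value_lt (w : Place K F) {f : F} (hf : f ∈ w.toValuationSubring) :
    w.adicValuation (f - algebraMap K F (value w f)) < 1 := by
  obtain ⟨c, hc⟩ := FF.constResidue w f hf
  have : w.adicValuation (f - algebraMap K F c) < 1 :=
    hc.trans_lt (by rw [← exp_zero, exp_lt_exp]; norm_num)
  rwa [value_eq this]

theorem value_algebraMap (w : Place K F) (c : K) : value w (algebraMap K F c) = c :=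
  value_eq (by rw [sub_self, map_zero]; exact zero_lt_one)

theorem value_zero (w : Place K F) : value w (0 : F) = 0 := by
  simpa using value_algebraMap w (0 : K)

theorem value_one (w : Place K F) : value w (1 : F) = 1 := by
  simpa using value_algebraMap w (1 : K)

theorem value_add (w : Place K F) {f g : F} (hf : f ∈ w.toValuationSubring)
    (hg : g ∈ w.toValuationSubring) : value w (f + g) = value w f + value w g := by
  refine value_eq ?_
  rw [map_add, show f + g - (algebraMap K F (value w f) + algebraMap K F (value w g)) =
    (f - algebraMap K F (value w f)) + (g - algebraMap K F (value w g)) by ring]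
  exact (Valuation.map_add _ _ _).trans_lt
    (max_lt (val_sub_value_lt w hf) (val_sub_value_lt w hg))

theorem value_mul (w : Place K F) {f g : F} (hf : f ∈ w.toValuationSubring)
    (hg : g ∈ w.toValuationSubring) : value w (f * g) = value w f * value w g := by
  refine value_eq ?_
  rw [map_mul, show f * g - algebraMap K F (value w f) * algebraMap K F (value w g) =
    (f - algebraMap K F (value w f)) * g +
      algebraMap K F (value w f) * (g - algebraMap K F (value w g)) by ring]
  refine (Valuation.map_add _ _ _).trans_lt (max_lt ?_ ?_) <;> rw [map_mul]
  · exact (mul_le_of_le_one_right' ((FF.mem_iff_val_le_one w g).mp hg)).trans_lt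
      (val_sub_value_lt w hf)
  · exact (mul_le_of_le_one_left' ((FF.mem_iff_val_le_one w _).mp (w.algebraMap_mem' _))).trans_lt
      (val_sub_value_lt w hg)

theorem value_sub (w : Place K F) {f g : F} (hf : f ∈ w.toValuationSubring)
    (hg : g ∈ w.toValuationSubring) : value w (f - g) = value w f - value w g := by
  have h := value_add w (sub_mem hf hg) hg
  rw [sub_add_cancel] at h
  rw [h, add_sub_cancel_right]

theorem value_eq_zero_iff (w : Place K F) {f : F} (hf : f ∈ w.toValuationSubring) :
    value w f = 0 ↔ w.adicValuation f < 1 := by
  constructor
  · intro h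
    simpa [h] using val_sub_value_lt w hf
  · intro h
    exact value_eq (by simpa using h)

end FLTAgent.Pic0Tors
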