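import Mathlib
import Fermat.Agent.FF.Differentials
import Fermat.Agent.Pic0Tors.Centred
import Fermat.Agent.Pic0Tors.Value

/-!
# A plane model adapted to a place

`exists_model`: at every place `v` there are a uniformiser `x`, a function `y` generating over
`K(x)` and a relation `P(x, y) = 0` with a simple root at the centre of `v`.
-/

set_option autoImplicit false
set_option linter.unusedSectionVars false
set_option linter.style.haveILetI false

noncomputable section

open AlgebraicCurve Polynomial WithZero
open scoped Polynomial.Bivariate Topology IntermediateField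

namespace FLTAgent.Pic0Tors

variable {K F : Type*} [Field K] [Field F] [Algebra K F] [IsAlgClosed K] [CharZero K] [FF.IsFF K F]

theorem exists_num_den {x : F} {v : Place K F} (hx : v.ord x = 1)
    (a : IntermediateField.adjoin K ({x} : Set F)) (ha : (a : F) ∈ v.toValuationSubring) :
    ∃ r s : K[X], s.eval 0 ≠ 0 ∧ (a : F) * aeval x s = aeval x r := by
  have htr : Transcendental K x := FF.transcendental_of_ord_ne_zero v (by omega)
  obtain ⟨R, hR⟩ := FF.ratHom_range x htr a
  have hXC : ∀ p : K[X], FF.ratHom x htr (algebraMap K[X] (RatFunc K) p) = aeval x p := by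
    intro p
    have e : (FF.ratHom x htr).comp (IsScalarTower.toAlgHom K K[X] (RatFunc K)) = aeval x :=
      Polynomial.algHom_ext (by simp [FF.ratHom_X x htr, RatFunc.algebraMap_X])
    exact DFunLike.congr_fun e p
  have hmul : (a : F) * aeval x R.denom = aeval x R.num := by
    rw [← hR, ← hXC, ← hXC, ← map_mul]
    congr 1
    have h := RatFunc.num_div_denom R
    rw [div_eq_iff (RatFunc.algebraMap_ne_zero R.denom_ne_zero)] at h
    exact h.symm
  refine ⟨R.num, R.denom, fun h0 => ?_, hmul⟩
  obtain ⟨u, u', hu⟩ := RatFunc.isCoprime_num_denom R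
  have hev := congrArg (fun p => eval 0 p) hu
  simp only [eval_add, eval_mul, h0, mul_zero, add_zero, eval_one] at hev
  have hn0 : R.num.eval 0 ≠ 0 := fun h => by simp [h] at hev
  have hxm : x ∈ v.toValuationSubring := (FF.mem_iff v x).mpr (Or.inr (by omega))
  have hc : Centred v x x (0 : K) 0 := by
    constructor <;>
    · rw [map_zero, sub_zero, FF.val_eq_exp v (fun h => by simp [h] at hx), ← exp_zero, exp_lt_exp]
      omega
  have h1 := val_evxy_eq_one hc (A := C R.num) (by rw [evalEval_C]; exact hn0)
  have h2 := val_evxy_sub_lt hc (C R.denom)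
  rw [evxy_C] at h1 h2
  rw [evalEval_C, h0, map_zero, sub_zero] at h2
  have h3 := congrArg v.adicValuation hmul
  rw [map_mul, h1] at h3
  exact absurd h3 (ne_of_lt ((mul_le_of_le_one_left' ((FF.mem_iff_val_le_one v _).mp ha)).trans_lt h2))

/-- A plane model in which the centre of `v` is a simple root. -/
theorem exists_model (v : Place K F) :
    ∃ (x y : F) (P : K[X][Y]) (b : K), v.ord x = 1 ∧ Centred v x y 0 b ∧ evxy x y P = 0 ∧
      (derivative P).evalEval 0 b ≠ 0 ∧
      ∀ f : F, ∃ (A : K[X][Y]) (B : K[X]), B ≠ 0 ∧ f * aeval x B = evxy x y A := by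
  obtain ⟨x, -, hx⟩ := FF.exists_ord_eq v 1
  have htr : Transcendental K x := FF.transcendental_of_ord_ne_zero v (by omega)
  haveI := FF.finiteDimensional_adjoin_of_transcendental (K := K) htr
  haveI := FF.isSeparable_adjoin_of_charZero (K := K) htr
  have hsep : FF.IsSep K x := ⟨htr, inferInstance, inferInstance⟩
  set L := IntermediateField.adjoin K ({x} : Set F) with hL
  obtain ⟨v0, s', hs', hv0, hs1, hiff⟩ := FF.exists_basePlace L hsep rfl
  have hv : v.restrict L = v0 := (hiff v).mpr (by omega)
  obtain ⟨y, c, hy⟩ := FF.exists_isAdapted (F := F) hv0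
  haveI := FF.ratPlace_of_constResidue (FF.constResidue v)
  have hπ := FF.uni_irreducible v
  have hne : KaehlerDifferential.D K F x ≠ 0 := FF.D_ne_zero_of_isSep' hsep
  have hds : FF.dExpand hπ (KaehlerDifferential.D K F (algebraMap L F s')) ≠ 0 := fun h => by
    rw [IntermediateField.algebraMap_apply, hs', ← map_zero (FF.dExpand hπ)] at h
    exact hne (FF.dExpand_injective _ h)
  obtain ⟨hd0, hdord⟩ := FF.ord_derivative_minpoly hv0 hs1 hy hv hπ hds
  rw [IntermediateField.algebraMap_apply, hs', ← FF.ordDifferential_eq_order,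
    (FF.ordDifferential_D_of_ord_cast_ne_zero v (f := x) (by rw [hx]; norm_num)).2, hx] at hdord
  -- lift polynomials over the base place ring to bivariate polynomials
  set φ : K[X][Y] →+* F[X] := mapRingHom (aeval x : K[X] →ₐ[K] F).toRingHom with hφ
  have lift : ∀ q : (v0.toValuationSubring)[X], ∃ (P : K[X][Y]) (B : K[X]), B.eval 0 ≠ 0 ∧
      φ P = C (aeval x B) * q.map (algebraMap v0.toValuationSubring F) := by
    intro q
    induction q using Polynomial.induction_on' with
    | add p q hp hq =>
      obtain ⟨P1, B1, h1, e1⟩ := hp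
      obtain ⟨P2, B2, h2, e2⟩ := hq
      refine ⟨C B2 * P1 + C B1 * P2, B1 * B2, by simp [h1, h2], ?_⟩
      rw [map_add, map_mul, map_mul, e1, e2, Polynomial.map_add]
      simp only [hφ, coe_mapRingHom, map_C, map_mul, AlgHom.toRingHom_eq_coe, RingHom.coe_coe]
      ring
    | monomial n a =>
      have hmem : ((a : L) : F) ∈ v.toValuationSubring := by
        have h2 : (a : L) ∈ (v.restrict L).toValuationSubring := hv ▸ a.2
        exact (Place.mem_restrict_iff v).mp h2
      obtain ⟨r, s, hs, e⟩ := exists_num_den hx (a : L) hmem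
      refine ⟨monomial n r, s, hs, ?_⟩
      rw [hφ, coe_mapRingHom, map_monomial, map_monomial, C_mul_monomial]
      congr 1
      show aeval x r = aeval x s * ((a : L) : F)
      rw [← e, mul_comm]
  have hev : ∀ P : K[X][Y], (φ P).eval y = evxy x y P := fun P => by
    have e : (evalRingHom y).comp φ = (evxy x y : K[X][Y] →ₐ[K] F).toRingHom :=
      Polynomial.ringHom_ext (fun p => by simp [hφ]) (by simp [hφ])
    exact RingHom.congr_fun e P
  have hyv : y - algebraMap K F (c v) ≠ 0 := fun h => by simpa [h] using hy.ord_eq_one v hv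
  have hcen : Centred v x y 0 (c v) := by
    constructor
    · rw [map_zero, sub_zero, FF.val_eq_exp v (fun h => by simp [h] at hx), hx, ← exp_zero,
        exp_lt_exp]
      omega
    · rw [FF.val_eq_exp v hyv, hy.ord_eq_one v hv, ← exp_zero, exp_lt_exp]
      omega
  obtain ⟨P, B, hB, hP⟩ := lift (minpoly v0.toValuationSubring y)
  refine ⟨x, y, P, c v, hx, hcen, ?_, ?_, ?_⟩
  · rw [← hev, hP, eval_mul, eval_map, ← aeval_def, minpoly.aeval, mul_zero]
  · intro h0
    have hD : φ (derivative P) =
        C (aeval x B) * (derivative (minpoly v0.toValuationSubring y)).map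
          (algebraMap v0.toValuationSubring F) := by
      have h := congrArg derivative hP
      rw [derivative_C_mul, derivative_map, hφ, coe_mapRingHom, derivative_map] at h
      rw [hφ, coe_mapRingHom]
      exact h
    have h1 := val_evxy_sub_lt hcen (derivative P)
    rw [h0, map_zero, sub_zero, ← hev, hD, eval_mul, eval_C, eval_map, ← aeval_def, map_mul,
      ← evxy_C x y B, val_evxy_eq_one hcen (A := C B) (by rw [evalEval_C]; exact hB), one_mul,
      FF.val_eq_exp v hd0, hdord] at h1
    simp at h1
  · intro f
    have htop := FF.adjoin_field_eq_top hv0 hs1 hy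
    have hf : f ∈ Algebra.adjoin L ({y} : Set F) := htop ▸ Algebra.mem_top
    rw [Algebra.adjoin_singleton_eq_range_aeval] at hf
    obtain ⟨q, rfl⟩ := hf
    induction q using Polynomial.induction_on' with
    | add p q hp hq =>
      obtain ⟨A1, B1, h1, e1⟩ := hp
      obtain ⟨A2, B2, h2, e2⟩ := hq
      refine ⟨C B2 * A1 + C B1 * A2, B1 * B2, mul_ne_zero h1 h2, ?_⟩
      simp only [map_add, map_mul, evxy_C, RingHom.coe_coe, AlgHom.toRingHom_eq_coe] at e1 e2 ⊢
      linear_combination aeval x B2 * e1 + aeval x B1 * e2
    | monomial n a =>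
      obtain ⟨R, hR⟩ := FF.ratHom_range x htr a
      refine ⟨C R.num * Y ^ n, R.denom, R.denom_ne_zero, ?_⟩
      have hXC : ∀ p : K[X], FF.ratHom x htr (algebraMap K[X] (RatFunc K) p) = aeval x p := by
        intro p
        have e : (FF.ratHom x htr).comp (IsScalarTower.toAlgHom K K[X] (RatFunc K)) = aeval x :=
          Polynomial.algHom_ext (by simp [FF.ratHom_X x htr, RatFunc.algebraMap_X])
        exact DFunLike.congr_fun e p
      have hmul : (a : F) * aeval x R.denom = aeval x R.num := by
        rw [← hR, ← hXC, ← hXC, ← map_mul]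
        congr 1
        have h := RatFunc.num_div_denom R
        rw [div_eq_iff (RatFunc.algebraMap_ne_zero R.denom_ne_zero)] at h
        exact h.symm
      show aeval y (monomial n a) * aeval x R.denom = _
      rw [aeval_monomial, IntermediateField.algebraMap_apply, map_mul, map_pow, evxy_C, evxy_Y,
        ← hmul]
      ring

end FLTAgent.Pic0Tors
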