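import Mathlib
import Fermat.Agent.Pic0Tors.Branch
import Fermat.Agent.Pic0Tors.Model

/-!
# Analytic charts on the places of a complex function field

`BranchChart v` packages a plane model at `v` with an analytic branch on a disc
(`exists_branchChart`). It gives the parametrisation `pt` of the nearby places, injective on the
disc (`pt_injOn`), and functions become meromorphic in the coordinate with the same orders
(`meromorphicOrderAt_fn`).
-/

set_option autoImplicit false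
set_option linter.unusedSectionVars false
set_option linter.style.haveILetI false

noncomputable section

open AlgebraicCurve Polynomial WithZero Filter
open scoped Polynomial.Bivariate Topology

namespace FLTAgent.Pic0Tors

variable {F : Type*} [Field F] [Algebra ℂ F] [FF.IsFF ℂ F]

theorem analyticAt_polyEval (B : ℂ[X]) (z : ℂ) : AnalyticAt ℂ (fun u => B.eval u) z :=
  ((analyticAt_id (𝕜 := ℂ) (z := z)).aeval_polynomial B).congr
    (Eventually.of_forall fun u => by simp)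

/-- A chart at the place `v`: a uniformizer `x`, a generator `y` and an analytic branch. -/
structure BranchChart (v : Place ℂ F) where
  x : F
  y : F
  P : ℂ[X][Y]
  h : ℂ → ℂ
  r : ℝ
  ε : ℝ
  r_pos : 0 < r
  ε_pos : 0 < ε
  ord_x : v.ord x = 1
  centred : Centred v x y 0 (h 0)
  root : evxy x y P = 0
  gen : ∀ f : F, ∃ (A : ℂ[X][Y]) (B : ℂ[X]), B ≠ 0 ∧ f * aeval x B = evxy x y A
  analytic : AnalyticOnNhd ℂ h (Metric.ball 0 r)
  branch_zero : ∀ z ∈ Metric.ball (0 : ℂ) r, branch h P z = 0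
  deriv_ne : ∀ z ∈ Metric.ball (0 : ℂ) r, (derivative P).evalEval z (h z) ≠ 0
  mem_ball : ∀ z ∈ Metric.ball (0 : ℂ) r, h z ∈ Metric.ball (h 0) ε
  uniq : ∀ z ∈ Metric.ball (0 : ℂ) r, ∀ c ∈ Metric.ball (h 0) ε,
    P.evalEval z c = 0 → c = h z

/-- Every place has a chart. -/
theorem exists_branchChart (v : Place ℂ F) : Nonempty (BranchChart v) := by
  obtain ⟨x, y, P, b, hx, hc, hP, hd, hgen⟩ := exists_model v
  obtain ⟨h, r, ε, hr, hε, h0, han, hall, huniq⟩ :=
    exists_branch (evalEval_eq_zero_of_evxy hc hP) hd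
  subst h0
  exact ⟨⟨x, y, P, h, r, ε, hr, hε, hx, hc, hP, hgen, han, fun z hz => (hall z hz).1,
    fun z hz => (hall z hz).2.1, fun z hz => (hall z hz).2.2, huniq⟩⟩

namespace BranchChart

variable {v : Place ℂ F} (c : BranchChart v)

theorem zero_mem : (0 : ℂ) ∈ Metric.ball (0 : ℂ) c.r := Metric.mem_ball_self c.r_pos

theorem transcendental : Transcendental ℂ c.x :=
  FF.transcendental_of_ord_ne_zero v (by rw [c.ord_x]; norm_num)

theorem x_sub_ne_zero (a : ℂ) : c.x - algebraMap ℂ F a ≠ 0 := fun h =>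
  c.transcendental ((sub_eq_zero.mp h) ▸ isAlgebraic_algebraMap a)

theorem aeval_ne_zero {B : ℂ[X]} (hB : B ≠ 0) : aeval c.x B ≠ 0 := fun h =>
  hB (transcendental_iff.mp c.transcendental B h)

theorem branch_eventually (z : ℂ) (hz : z ∈ Metric.ball (0 : ℂ) c.r) :
    ∀ᶠ u in 𝓝 z, branch c.h c.P u = 0 :=
  eventually_of_mem (Metric.isOpen_ball.mem_nhds hz) c.branch_zero

theorem branch_eq_zero {A : ℂ[X][Y]} (hA : evxy c.x c.y A = 0) {z : ℂ}
    (hz : z ∈ Metric.ball (0 : ℂ) c.r) : branch c.h A z = 0 :=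
  AnalyticOnNhd.eqOn_zero_of_preconnected_of_eventuallyEq_zero
    (fun u hu => analyticAt_branch (c.analytic u hu) A) Metric.isPreconnected_ball c.zero_mem
    (branch_eventually_zero c.centred (c.x_sub_ne_zero 0) c.root (c.deriv_ne 0 c.zero_mem)
      (c.analytic 0 c.zero_mem) rfl (c.branch_eventually 0 c.zero_mem) A hA) hz

theorem exists_centred {z : ℂ} (hz : z ∈ Metric.ball (0 : ℂ) c.r) :
    ∃ w : Place ℂ F, Centred w c.x c.y z (c.h z) := by
  classical
  set φ : ℂ[X][Y] →+* ℂ := evalEvalRingHom z (c.h z) with hφ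
  set ψ : ℂ[X][Y] →+* F := (evxy c.x c.y : ℂ[X][Y] →ₐ[ℂ] F).toRingHom with hψ
  have hker : RingHom.ker ψ.rangeRestrict ≤ RingHom.ker φ := fun A hA =>
    c.branch_eq_zero (congrArg Subtype.val (RingHom.mem_ker.mp hA)) hz
  set χ : ψ.range →+* ℂ :=
    ψ.rangeRestrict.liftOfSurjective ψ.rangeRestrict_surjective ⟨φ, hker⟩
  have hχ : ∀ A, χ ⟨ψ A, A, rfl⟩ = A.evalEval z (c.h z) := fun A =>
    RingHom.liftOfRightInverse_comp_apply _ _ _ ⟨φ, hker⟩ A
  haveI : (RingHom.ker χ).IsPrime := RingHom.ker_isPrime χ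
  obtain ⟨B, hB⟩ := LocalSubring.exists_le_valuationSubring
    (LocalSubring.ofPrime ψ.range (RingHom.ker χ))
  obtain ⟨hle, hloc⟩ := hB
  have hK : ∀ a : ℂ, algebraMap ℂ F a ∈ B := fun a =>
    hle (LocalSubring.le_ofPrime _ _ ⟨C (C a), by simp [ψ]⟩)
  have hnu : ∀ A : ℂ[X][Y], A.evalEval z (c.h z) = 0 →
      ∃ hm : evxy c.x c.y A ∈ B, ¬ IsUnit (⟨evxy c.x c.y A, hm⟩ : B) := by
    intro A hA
    refine ⟨hle (LocalSubring.le_ofPrime _ _ ⟨A, rfl⟩), fun hu => ?_⟩
    have h1 := (hloc.map_nonunit (⟨evxy c.x c.y A, LocalSubring.le_ofPrime _ _ ⟨A, rfl⟩⟩ :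
      (LocalSubring.ofPrime ψ.range (RingHom.ker χ)).toSubring) hu)
    have h2 : (⟨ψ A, A, rfl⟩ : ψ.range) ∉ RingHom.ker χ :=
      (IsLocalization.AtPrime.isUnit_to_map_iff
        (LocalSubring.ofPrime ψ.range (RingHom.ker χ)).toSubring (RingHom.ker χ) _).mp h1
    exact h2 (RingHom.mem_ker.mpr ((hχ A).trans hA))
  have hx0 : evxy c.x c.y (C (X - C z)) = c.x - algebraMap ℂ F z := by simp
  have hy0 : evxy c.x c.y (Y - C (C (c.h z))) = c.y - algebraMap ℂ F (c.h z) := by simp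
  have hne : B ≠ ⊤ := by
    rintro rfl
    obtain ⟨hm, h⟩ := hnu (C (X - C z)) (by rw [evalEval_C]; simp)
    refine h (isUnit_iff_exists_inv.mpr
      ⟨⟨(evxy c.x c.y (C (X - C z)))⁻¹, ValuationSubring.mem_top _⟩, Subtype.ext ?_⟩)
    exact mul_inv_cancel₀ (by rw [hx0]; exact c.x_sub_ne_zero z)
  obtain ⟨w, rfl⟩ := FF.exists_place_eq B hK hne
  have hlt : ∀ A : ℂ[X][Y], A.evalEval z (c.h z) = 0 →
      w.adicValuation (evxy c.x c.y A) < 1 := by
    intro A hA
    obtain ⟨hm, h⟩ := hnu A hA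
    refine lt_of_le_of_ne ((FF.mem_iff_val_le_one w _).mp hm) fun h1 => h ?_
    exact (w.adicValuation_coe_eq_one_iff ⟨_, hm⟩).mp h1
  exact ⟨w, hx0 ▸ hlt _ (by rw [evalEval_C]; simp), hy0 ▸ hlt _ (by simp [evalEval, sub_self])⟩

theorem exists_order {z : ℂ} (hz : z ∈ Metric.ball (0 : ℂ) c.r) {w : Place ℂ F}
    (hw : Centred w c.x c.y z (c.h z)) (A : ℂ[X][Y]) (hA : evxy c.x c.y A ≠ 0) :
    ∃ n : ℕ, analyticOrderAt (branch c.h A) z = n ∧
      w.ord (evxy c.x c.y A) = n * w.ord (c.x - algebraMap ℂ F z) :=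
  order_branch hw (c.x_sub_ne_zero z) c.root (c.deriv_ne z hz) (c.analytic z hz) rfl
    (c.branch_eventually z hz) A hA

theorem exists_order_fun (f : F) (hf : f ≠ 0) :
    ∃ (A : ℂ[X][Y]) (B : ℂ[X]), B ≠ 0 ∧ f * aeval c.x B = evxy c.x c.y A ∧
      ∀ z ∈ Metric.ball (0 : ℂ) c.r, ∀ w : Place ℂ F, Centred w c.x c.y z (c.h z) →
        ∃ na nb : ℕ, analyticOrderAt (branch c.h A) z = na ∧
          analyticOrderAt (branch c.h (C B)) z = nb ∧
          w.ord f = ((na : ℤ) - nb) * w.ord (c.x - algebraMap ℂ F z) := by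
  obtain ⟨A, B, hB, e⟩ := c.gen f
  have hB0 := c.aeval_ne_zero hB
  have hA0 : evxy c.x c.y A ≠ 0 := e ▸ mul_ne_zero hf hB0
  refine ⟨A, B, hB, e, fun z hz w hw => ?_⟩
  obtain ⟨na, hna, ea⟩ := c.exists_order hz hw A hA0
  obtain ⟨nb, hnb, eb⟩ := c.exists_order hz hw (C B) (by rwa [evxy_C])
  refine ⟨na, nb, hna, hnb, ?_⟩
  have := congrArg w.ord e
  rw [w.ord_mul hf hB0] at this
  rw [evxy_C] at eb
  linear_combination this + ea - eb

theorem ord_centred_pos {z : ℂ} {w : Place ℂ F} (hw : Centred w c.x c.y z (c.h z)) :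
    0 < w.ord (c.x - algebraMap ℂ F z) := by
  have h1 := hw.fst
  rw [FF.val_eq_exp w (c.x_sub_ne_zero z), ← exp_zero, exp_lt_exp] at h1
  omega

theorem centred_unique {z : ℂ} (hz : z ∈ Metric.ball (0 : ℂ) c.r) {w w' : Place ℂ F}
    (hw : Centred w c.x c.y z (c.h z)) (hw' : Centred w' c.x c.y z (c.h z)) : w = w' := by
  refine FF.place_eq_of_ord_nonneg fun f hf => ?_
  rcases eq_or_ne f 0 with rfl | hf0
  · simp
  obtain ⟨A, B, hB, e, key⟩ := c.exists_order_fun f hf0
  obtain ⟨na, nb, h1, h2, e1⟩ := key z hz w hw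
  obtain ⟨na', nb', h1', h2', e1'⟩ := key z hz w' hw'
  have ha : na = na' := by exact_mod_cast h1.symm.trans h1'
  have hb : nb = nb' := by exact_mod_cast h2.symm.trans h2'
  subst ha hb
  rw [e1] at hf
  rw [e1']
  exact mul_nonneg ((mul_nonneg_iff_of_pos_right (c.ord_centred_pos hw)).mp hf)
    (c.ord_centred_pos hw').le

open Classical in
/-- The place at parameter `z`. -/
def pt (z : ℂ) : Place ℂ F :=
  if hz : z ∈ Metric.ball (0 : ℂ) c.r then (c.exists_centred hz).choose else v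

theorem centred_pt {z : ℂ} (hz : z ∈ Metric.ball (0 : ℂ) c.r) :
    Centred (c.pt z) c.x c.y z (c.h z) := by
  rw [pt, dif_pos hz]
  exact (c.exists_centred hz).choose_spec

theorem pt_zero : c.pt 0 = v :=
  c.centred_unique c.zero_mem (c.centred_pt c.zero_mem) c.centred

theorem ord_x_sub {z : ℂ} (hz : z ∈ Metric.ball (0 : ℂ) c.r) :
    (c.pt z).ord (c.x - algebraMap ℂ F z) = 1 := by
  obtain ⟨g, hg0, hg⟩ := FF.exists_ord_eq (c.pt z) 1
  obtain ⟨A, B, hB, e, key⟩ := c.exists_order_fun g hg0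
  obtain ⟨na, nb, -, -, e1⟩ := key z hz _ (c.centred_pt hz)
  rw [hg] at e1
  exact Int.eq_one_of_dvd_one (c.ord_centred_pos (c.centred_pt hz)).le ⟨_, e1.trans (mul_comm _ _)⟩

theorem value_x {z : ℂ} (hz : z ∈ Metric.ball (0 : ℂ) c.r) : value (c.pt z) c.x = z :=
  value_eq (c.centred_pt hz).fst

theorem value_y {z : ℂ} (hz : z ∈ Metric.ball (0 : ℂ) c.r) : value (c.pt z) c.y = c.h z :=
  value_eq (c.centred_pt hz).snd

theorem value_evxy {z : ℂ} (hz : z ∈ Metric.ball (0 : ℂ) c.r) (A : ℂ[X][Y]) :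
    value (c.pt z) (evxy c.x c.y A) = branch c.h A z :=
  value_eq (val_evxy_sub_lt (c.centred_pt hz) A)

/-- The parametrisation is injective on the disc. -/
theorem pt_injOn : Set.InjOn c.pt (Metric.ball (0 : ℂ) c.r) := fun a ha b hb h => by
  rw [← c.value_x ha, h, c.value_x hb]

/-- A function in the coordinate of the chart. -/
def fn (f : F) (z : ℂ) : ℂ := value (c.pt z) f

theorem fn_eventuallyEq {f : F} {A : ℂ[X][Y]} {B : ℂ[X]} (hB : B ≠ 0)
    (e : f * aeval c.x B = evxy c.x c.y A) {z : ℂ} (hz : z ∈ Metric.ball (0 : ℂ) c.r) :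
    c.fn f =ᶠ[𝓝[≠] z] fun u => branch c.h A u / B.eval u := by
  have hfin : ∀ᶠ u in 𝓝[≠] z, B.eval u ≠ 0 := by
    rcases eq_or_ne (B.eval z) 0 with h | h
    · have hz' : {u : ℂ | B.IsRoot u} \ {z} ⊆ {u : ℂ | B.IsRoot u} := Set.sdiff_subset
      have ho : IsOpen ({u : ℂ | B.IsRoot u} \ {z})ᶜ :=
        ((Polynomial.finite_setOfPred_isRoot hB).subset hz').isClosed.isOpen_compl
      filter_upwards [nhdsWithin_le_nhds (ho.mem_nhds (by simp)), self_mem_nhdsWithin] with u hu hne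
      exact fun h0 => hu ⟨h0, hne⟩
    · exact nhdsWithin_le_nhds (B.continuous.continuousAt.eventually_ne h)
  filter_upwards [hfin, nhdsWithin_le_nhds (Metric.isOpen_ball.mem_nhds hz)] with u hu huz
  have hcu := c.centred_pt huz
  have hB1 : (c.pt u).adicValuation (aeval c.x B) = 1 := by
    rw [← evxy_C c.x c.y B]
    exact val_evxy_eq_one hcu (by rw [evalEval_C]; exact hu)
  have hmB : aeval c.x B ∈ (c.pt u).toValuationSubring :=
    (FF.mem_iff_val_le_one _ _).mpr hB1.le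
  have hmf : f ∈ (c.pt u).toValuationSubring := by
    rw [FF.mem_iff_val_le_one]
    have h1 := congrArg (c.pt u).adicValuation e
    rw [map_mul, hB1, mul_one] at h1
    rw [h1]
    exact val_evxy_le hcu A
  rw [eq_div_iff hu, ← c.value_evxy huz A, ← e, value_mul _ hmf hmB, ← evxy_C c.x c.y B,
    c.value_evxy huz, branch, evalEval_C, fn]

theorem meromorphicAt_fn (f : F) {z : ℂ} (hz : z ∈ Metric.ball (0 : ℂ) c.r) :
    MeromorphicAt (c.fn f) z := by
  obtain ⟨A, B, hB, e⟩ := c.gen f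
  exact (((analyticAt_branch (c.analytic z hz) A).meromorphicAt).div
    (analyticAt_polyEval B z).meromorphicAt).congr
    (c.fn_eventuallyEq hB e hz).symm

/-- The analytic order in the coordinate is the order at the place. -/
theorem meromorphicOrderAt_fn {f : F} (hf : f ≠ 0) {z : ℂ}
    (hz : z ∈ Metric.ball (0 : ℂ) c.r) :
    meromorphicOrderAt (c.fn f) z = ((c.pt z).ord f : ℤ) := by
  obtain ⟨A, B, hB, e, key⟩ := c.exists_order_fun f hf
  obtain ⟨na, nb, h1, h2, e1⟩ := key z hz _ (c.centred_pt hz)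
  have hBan : AnalyticAt ℂ (fun u => B.eval u) z :=
    analyticAt_polyEval B z
  have hAan := analyticAt_branch (c.analytic z hz) A
  have h2' : analyticOrderAt (fun u => B.eval u) z = nb := by
    rw [← h2]
    congr 1
    funext u
    rw [branch, evalEval_C]
  have hdiv : meromorphicOrderAt (branch c.h A / fun u => B.eval u) z = ((na : ℤ) - nb : ℤ) := by
    rw [meromorphicOrderAt_div hAan.meromorphicAt hBan.meromorphicAt,
      hAan.meromorphicOrderAt_eq, hBan.meromorphicOrderAt_eq, h1, h2']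
    rfl
  rw [meromorphicOrderAt_congr (c.fn_eventuallyEq hB e hz), e1, c.ord_x_sub hz, mul_one]
  exact hdiv

end BranchChart

end FLTAgent.Pic0Tors
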