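import Mathlib
import Fermat.Agent.Pic0Tors.Abel.Exp
import Fermat.Agent.Pic0Tors.Abel.Count

/-!
# Torsion of `Pic⁰` over `ℂ`

`natCard_torsion_complex`: the `n`-torsion of `Pic⁰` of a complex function field of genus `g` has
`n ^ (2g)` elements, from the uniformisation `exists_exponential` and the lattice count
`natCard_torsion_of_periods`.
-/

set_option autoImplicit false

noncomputable section

open AlgebraicCurve

namespace FLTAgent.Pic0Tors

/-- `Pic⁰` of a complex function field of genus `g` has exactly `n ^ (2g)` points killed by `n`. -/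
theorem natCard_torsion_complex (G : Type) [Field G] [Algebra ℂ G] [FF.IsFF ℂ G] (n : ℕ)
    [NeZero n] : Nat.card (Pic0.torsion ℂ G n) = n ^ (2 * genusFF ℂ G) := by
  obtain ⟨E, hsurj, hdisc, hbdd⟩ := exists_exponential G
  rw [← natCard_torsion_of_periods E hsurj hdisc hbdd n]
  exact Nat.card_congr (Equiv.subtypeEquivRight fun x => Pic0.mem_torsion)

end FLTAgent.Pic0Tors
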